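import Mathlib
import Fermat.Prelude.Def_AlgebraicCurve_IsCurveOver

/-!
# P-S27 glue: a curve in the sense of `IsCurveOver` is a function field of one variable

For a finitely generated field extension `F / K` of characteristic zero, the `F`-dimension of the
Kähler differentials `Ω[F⁄K]` equals the size of a (separating) transcendence basis.  Hence, if
`Ω[F⁄K]` has rank one, there is `x : F` transcendental over `K` with `F / K(x)` finite: the entry
hypotheses `(hx : Transcendental K x) [FiniteDimensional K⟮x⟯ F]` of the Riemann–Roch library
(`Fermat.Agent.Lib.RiemannRoch`) and of the P-S24 places dictionary.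
-/

set_option autoImplicit false
set_option linter.style.haveILetI false

noncomputable section

open IntermediateField KaehlerDifferential TensorProduct

namespace Fermat.Agent.S27x.Glue

variable {K F : Type*} [Field K] [Field F] [Algebra K F]

open scoped IntermediateField.algebraAdjoinAdjoin in
/-- For a separating algebraically independent family `v : ι → F` (i.e. `F` is separable
algebraic over `K(v)`), the Kähler differentials `Ω[F⁄K]` have `F`-dimension `#ι`. -/
theorem finrank_kaehler_eq_card_of_isSeparable {ι : Type*} [Fintype ι] {v : ι → F}
    (hb : AlgebraicIndependent K v)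
    [Algebra.IsSeparable (IntermediateField.adjoin K (Set.range v)) F] :
    Module.finrank F Ω[F⁄K] = Fintype.card ι := by
  classical
  have h1 : Algebra.FormallyEtale (Algebra.adjoin K (Set.range v))
      (IntermediateField.adjoin K (Set.range v)) :=
    .of_isLocalization (nonZeroDivisors _)
  have h2 : Algebra.FormallyEtale (IntermediateField.adjoin K (Set.range v)) F :=
    Algebra.FormallyEtale.of_isSeparable _ F
  have h3 : Algebra.FormallyEtale (Algebra.adjoin K (Set.range v)) F :=
    .comp _ (IntermediateField.adjoin K (Set.range v)) _
  -- the polynomial ring as base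
  letI algPA : Algebra (MvPolynomial ι K) (Algebra.adjoin K (Set.range v)) :=
    hb.aevalEquiv.toAlgHom.toRingHom.toAlgebra
  have hPA : ∀ p : MvPolynomial ι K,
      algebraMap (MvPolynomial ι K) (Algebra.adjoin K (Set.range v)) p = hb.aevalEquiv p :=
    fun _ => rfl
  haveI tKPA : IsScalarTower K (MvPolynomial ι K) (Algebra.adjoin K (Set.range v)) :=
    IsScalarTower.of_algebraMap_eq fun x => by
      rw [hPA, MvPolynomial.algebraMap_eq, ← MvPolynomial.algebraMap_eq, AlgEquiv.commutes]
  have h4 : Algebra.FormallyEtale (MvPolynomial ι K) (Algebra.adjoin K (Set.range v)) := by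
    have hbij : Function.Bijective
        (Algebra.ofId (MvPolynomial ι K) (Algebra.adjoin K (Set.range v))) :=
      hb.aevalEquiv.bijective
    exact Algebra.FormallyEtale.of_equiv (AlgEquiv.ofBijective _ hbij)
  letI algPF : Algebra (MvPolynomial ι K) F :=
    ((algebraMap (Algebra.adjoin K (Set.range v)) F).comp
      (algebraMap (MvPolynomial ι K) (Algebra.adjoin K (Set.range v)))).toAlgebra
  haveI tPAF : IsScalarTower (MvPolynomial ι K) (Algebra.adjoin K (Set.range v)) F :=
    IsScalarTower.of_algebraMap_eq fun _ => rfl
  haveI tKPF : IsScalarTower K (MvPolynomial ι K) F :=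
    IsScalarTower.of_algebraMap_eq fun x => by
      rw [IsScalarTower.algebraMap_apply (MvPolynomial ι K) (Algebra.adjoin K (Set.range v)) F,
        ← IsScalarTower.algebraMap_apply K (MvPolynomial ι K) (Algebra.adjoin K (Set.range v)),
        ← IsScalarTower.algebraMap_apply K (Algebra.adjoin K (Set.range v)) F]
  have h5 : Algebra.FormallyEtale (MvPolynomial ι K) F :=
    .comp _ (Algebra.adjoin K (Set.range v)) _
  have e := KaehlerDifferential.tensorKaehlerEquivOfFormallyEtale K (MvPolynomial ι K) F
  rw [← e.finrank_eq, Module.finrank_baseChange,
    Module.finrank_eq_card_basis (KaehlerDifferential.mvPolynomialBasis K ι)]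

/-- A finitely generated field extension `F / K` in characteristic zero whose Kähler
differentials have rank one is a function field of one variable: there is a transcendental
`x` with `F / K(x)` finite (and separable). -/
theorem exists_transcendental_finiteDimensional_of_finrank_kaehler [CharZero K]
    [Algebra.EssFiniteType K F] (h : Module.finrank F Ω[F⁄K] = 1) :
    ∃ x : F, Transcendental K x ∧ FiniteDimensional K⟮x⟯ F ∧ Algebra.IsSeparable K⟮x⟯ F := by
  classical
  obtain ⟨s, hs, H⟩ := exists_isTranscendenceBasis_and_isSeparable_of_perfectField K F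
  have hrange : Set.range ((↑) : s → F) = (s : Set F) := Subtype.range_coe
  haveI : Algebra.IsSeparable (IntermediateField.adjoin K (Set.range ((↑) : s → F))) F := by
    rw [hrange]; exact H
  have hcard := finrank_kaehler_eq_card_of_isSeparable (K := K) (F := F) hs.1
  rw [h, Fintype.card_coe] at hcard
  obtain ⟨x, rfl⟩ := Finset.card_eq_one.mp hcard.symm
  have hx : Transcendental K x := by
    have := hs.1.transcendental ⟨x, Finset.mem_singleton_self x⟩
    exact this
  rw [Finset.coe_singleton] at H
  refine ⟨x, hx, ?_, H⟩
  haveI : Algebra.EssFiniteType K⟮x⟯ F := Algebra.EssFiniteType.of_comp K K⟮x⟯ F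
  haveI : Algebra.IsAlgebraic K⟮x⟯ F := Algebra.IsSeparable.isAlgebraic _ _
  exact Algebra.finite_of_essFiniteType_of_isAlgebraic

open AlgebraicCurve in
/-- The function field of a curve (`IsCurveOver`), finitely generated over a field of
characteristic zero, is finite over `K(x)` for some transcendental `x`. -/
theorem exists_transcendental_finiteDimensional [CharZero K] [IsCurveOver K F]
    [Algebra.EssFiniteType K F] :
    ∃ x : F, Transcendental K x ∧ FiniteDimensional K⟮x⟯ F ∧ Algebra.IsSeparable K⟮x⟯ F :=
  exists_transcendental_finiteDimensional_of_finrank_kaehler IsCurveOver.finrank_kaehler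

end Fermat.Agent.S27x.Glue
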